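import Fermat.Agent.S56.GW.Asm.Main
import Fermat.Agent.S55

/-!
# S56, node [GW-ASM]: final form (prefix `s56gwa_`)

`s56gwa_main : s56gw_Dual_stmt → s56gw_GEC_stmt → s56gw_LEC_stmt → s56gw_H2_stmt →
  s56gw_Unr_stmt → s56gw_Main_stmt` (the Poitou–Tate input `s56gwa_PT_stmt` is S55).
-/

set_option autoImplicit false

open CategoryTheory Module groupCohomology ExtCitation

namespace Fermat.Agent.S56

/-- S55, in the vocabulary of [GW]. -/
theorem s56gwa_PT : s56gwa_PT_stmt :=
  fun _p _ hp2 S hpS M _ hsm hur => Fermat.Agent.S55.result hp2 S hpS M hsm hur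

/-- **[GW-ASM]**: the Greenberg–Wiles inequality from the five internal seams. -/
theorem s56gwa_main (hDual : s56gw_Dual_stmt) (hGEC : s56gw_GEC_stmt) (hLEC : s56gw_LEC_stmt)
    (hH2 : s56gw_H2_stmt) (hUnr : s56gw_Unr_stmt) : s56gw_Main_stmt :=
  s56gwa_main_of_PT s56gwa_PT hDual hGEC hLEC hH2 hUnr

end Fermat.Agent.S56
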