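/-
S56, node [GW], cell **[GW-ASM]** (helper5).  Prefix `s56gwa_`.

PURE LINEAR ALGEBRA (Mathlib only) for the Greenberg–Wiles count.

* `s56gwa_rank_flip` : a bilinear map `β : X → Y → k` between finite-dimensional spaces has the
  same rank on both sides: `dim ker β + dim Y = dim ker β.flip + dim X`;
* `s56gwa_orth_count` : for a bilinear `B : X → X' → k` and finite-dimensional subspaces `Λ ≤ X`,
  `A' ≤ X'`: `dim (Λ ⊓ A'^⊥) + dim A' = dim Λ + dim (A' ⊓ Λ^⊥)`;
* `s56gwa_count` : THE ABSTRACT COUNT.  A finite family of local pairings `B q : X q → X' q → k`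
  with finite-dimensional subspaces `C q`, `C' q` (right non-degenerate on `C × C'`), global spaces
  `G`, `G'` with localisation maps satisfying reciprocity and middle exactness, local conditions
  `Λ q ≤ C q`:
  `dim {x | x_q ∈ Λ q ∀ q} + Σ dim C q + dim {y | y_q = 0 ∀ q}
      = Σ dim Λ q + dim {y | y_q ∈ (Λ q)^⊥ ∀ q} + dim G`.
-/
import Mathlib

set_option autoImplicit false
set_option linter.style.haveILetI false

open Module

namespace Fermat.Agent.S56

section RankFlip

variable {k : Type*} [Field k]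
variable {X Y : Type*} [AddCommGroup X] [Module k X] [AddCommGroup Y] [Module k Y]
variable [FiniteDimensional k X] [FiniteDimensional k Y]

/-- row rank = column rank, for a bilinear map between finite-dimensional spaces. -/
theorem s56gwa_rank_flip (β : X →ₗ[k] Y →ₗ[k] k) :
    finrank k (LinearMap.ker β) + finrank k Y = finrank k (LinearMap.ker β.flip) + finrank k X := by
  have h1 := LinearMap.finrank_range_add_finrank_ker β
  have h2 := LinearMap.finrank_range_add_finrank_ker β.flip
  -- `range β.flip` has the same dimension as `range β`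
  have h3 : finrank k (LinearMap.range β.flip) = finrank k (LinearMap.range β) := by
    have e : β.flip = β.dualMap ∘ₗ (Module.evalEquiv k Y).toLinearMap := by
      ext y x
      simp [LinearMap.dualMap_apply]
    rw [e, LinearMap.range_comp_of_range_eq_top _ (LinearEquiv.range _),
      LinearMap.finrank_range_dualMap_eq_finrank_range]
  omega

end RankFlip

section Orth

variable {k : Type*} [Field k]
variable {X X' : Type*} [AddCommGroup X] [Module k X] [AddCommGroup X'] [Module k X']

/-- the left orthogonal of a subspace of `X'`. -/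
def s56gwa_orthL (B : X →ₗ[k] X' →ₗ[k] k) (A' : Submodule k X') : Submodule k X where
  carrier := {ξ | ∀ a' ∈ A', B ξ a' = 0}
  add_mem' := fun {a b} ha hb a' h => by rw [map_add, LinearMap.add_apply, ha a' h, hb a' h, add_zero]
  zero_mem' := fun a' _ => by rw [map_zero, LinearMap.zero_apply]
  smul_mem' := fun c a ha a' h => by rw [map_smul, LinearMap.smul_apply, ha a' h, smul_zero]

/-- the right orthogonal of a subspace of `X`. -/
def s56gwa_orthR (B : X →ₗ[k] X' →ₗ[k] k) (Λ : Submodule k X) : Submodule k X' where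
  carrier := {η | ∀ l ∈ Λ, B l η = 0}
  add_mem' := fun {a b} ha hb l h => by rw [map_add, ha l h, hb l h, add_zero]
  zero_mem' := fun l _ => by rw [map_zero]
  smul_mem' := fun c a ha l h => by rw [map_smul, ha l h, smul_zero]

theorem s56gwa_mem_orthL {B : X →ₗ[k] X' →ₗ[k] k} {A' : Submodule k X'} {ξ : X} :
    ξ ∈ s56gwa_orthL B A' ↔ ∀ a' ∈ A', B ξ a' = 0 := Iff.rfl

theorem s56gwa_mem_orthR {B : X →ₗ[k] X' →ₗ[k] k} {Λ : Submodule k X} {η : X'} :
    η ∈ s56gwa_orthR B Λ ↔ ∀ l ∈ Λ, B l η = 0 := Iff.rfl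

/-- **the orthogonality count**: the pairing `Λ × A' → k` has the same rank on both sides. -/
theorem s56gwa_orth_count (B : X →ₗ[k] X' →ₗ[k] k) (Λ : Submodule k X) (A' : Submodule k X')
    [FiniteDimensional k Λ] [FiniteDimensional k A'] :
    finrank k ↥(Λ ⊓ s56gwa_orthL B A') + finrank k A'
      = finrank k Λ + finrank k ↥(A' ⊓ s56gwa_orthR B Λ) := by
  set β : Λ →ₗ[k] A' →ₗ[k] k := B.domRestrict₁₂ Λ A' with hβ
  have h := s56gwa_rank_flip β
  have e1 : (LinearMap.ker β).map Λ.subtype = Λ ⊓ s56gwa_orthL B A' := by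
    ext ξ
    simp only [Submodule.mem_map, LinearMap.mem_ker, Submodule.subtype_apply, Submodule.mem_inf,
      s56gwa_mem_orthL]
    constructor
    · rintro ⟨l, hl, rfl⟩
      refine ⟨l.2, fun a' ha' => ?_⟩
      have := LinearMap.congr_fun hl ⟨a', ha'⟩
      simpa [hβ, LinearMap.domRestrict₁₂_apply] using this
    · rintro ⟨hξ, h0⟩
      refine ⟨⟨ξ, hξ⟩, ?_, rfl⟩
      ext a'
      simpa [hβ, LinearMap.domRestrict₁₂_apply] using h0 a'.1 a'.2
  have e2 : (LinearMap.ker β.flip).map A'.subtype = A' ⊓ s56gwa_orthR B Λ := by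
    ext η
    simp only [Submodule.mem_map, LinearMap.mem_ker, Submodule.subtype_apply, Submodule.mem_inf,
      s56gwa_mem_orthR]
    constructor
    · rintro ⟨a', ha', rfl⟩
      refine ⟨a'.2, fun l hl => ?_⟩
      have := LinearMap.congr_fun ha' ⟨l, hl⟩
      simpa [hβ, LinearMap.domRestrict₁₂_apply] using this
    · rintro ⟨hη, h0⟩
      refine ⟨⟨η, hη⟩, ?_, rfl⟩
      ext l
      simpa [hβ, LinearMap.domRestrict₁₂_apply] using h0 l.1 l.2
  rw [← e1, ← e2, Submodule.finrank_map_subtype_eq, Submodule.finrank_map_subtype_eq]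
  omega

end Orth

section Comap

variable {k : Type*} [Field k]
variable {G V : Type*} [AddCommGroup G] [Module k G] [AddCommGroup V] [Module k V]
variable [FiniteDimensional k G]

/-- rank–nullity for a preimage: `dim F⁻¹(W) = dim ker F + dim (W ⊓ range F)`. -/
theorem s56gwa_finrank_comap (F : G →ₗ[k] V) (W : Submodule k V) :
    finrank k ↥(W.comap F) = finrank k (LinearMap.ker F) + finrank k ↥(W ⊓ LinearMap.range F) := by
  set g : ↥(W.comap F) →ₗ[k] V := F.domRestrict (W.comap F) with hg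
  have h := LinearMap.finrank_range_add_finrank_ker g
  have e1 : LinearMap.range g = W ⊓ LinearMap.range F := by
    ext v
    simp only [LinearMap.mem_range, Submodule.mem_inf, hg, LinearMap.domRestrict_apply]
    constructor
    · rintro ⟨x, rfl⟩
      exact ⟨x.2, x.1, rfl⟩
    · rintro ⟨hv, x, rfl⟩
      exact ⟨⟨x, hv⟩, rfl⟩
  have e2 : (LinearMap.ker g).map (W.comap F).subtype = LinearMap.ker F := by
    ext x
    simp only [Submodule.mem_map, LinearMap.mem_ker, Submodule.subtype_apply, hg,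
      LinearMap.domRestrict_apply]
    constructor
    · rintro ⟨y, hy, rfl⟩
      exact hy
    · intro hx
      refine ⟨⟨x, ?_⟩, hx, rfl⟩
      rw [Submodule.mem_comap, hx]
      exact W.zero_mem
  rw [← e1, ← e2, Submodule.finrank_map_subtype_eq]
  omega

end Comap

section Count

variable {k : Type*} [Field k] {ι : Type*} (s : Finset ι)
variable {X X' : ι → Type*} [∀ q, AddCommGroup (X q)] [∀ q, Module k (X q)]
  [∀ q, AddCommGroup (X' q)] [∀ q, Module k (X' q)]
variable (B : ∀ q, X q →ₗ[k] X' q →ₗ[k] k)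
variable (C : ∀ q, Submodule k (X q)) (C' : ∀ q, Submodule k (X' q))
variable {G G' : Type*} [AddCommGroup G] [Module k G] [AddCommGroup G'] [Module k G']
  [FiniteDimensional k G] [FiniteDimensional k G']
variable (f : ∀ q, G →ₗ[k] X q) (f' : ∀ q, G' →ₗ[k] X' q)
variable (Λ : ∀ q, Submodule k (X q))

/-- **THE ABSTRACT GREENBERG–WILES COUNT.** -/
theorem s56gwa_count
    (hC : ∀ q ∈ s, FiniteDimensional k (C q))
    (hright : ∀ q ∈ s, ∀ y ∈ C' q, (∀ x ∈ C q, B q x y = 0) → y = 0)
    (hf : ∀ q ∈ s, ∀ x, f q x ∈ C q) (hf' : ∀ q ∈ s, ∀ y, f' q y ∈ C' q)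
    (hrecip : ∀ x y, ∑ q ∈ s, B q (f q x) (f' q y) = 0)
    (hmiddle : ∀ ξ : ∀ q, X q, (∀ q ∈ s, ξ q ∈ C q) →
      (∀ y, ∑ q ∈ s, B q (ξ q) (f' q y) = 0) → ∃ x, ∀ q ∈ s, f q x = ξ q)
    (hΛ : ∀ q ∈ s, Λ q ≤ C q) :
    finrank k ↥(⨅ q ∈ s, (Λ q).comap (f q)) + ∑ q ∈ s, finrank k (C q)
        + finrank k ↥(⨅ q ∈ s, LinearMap.ker (f' q))
      = ∑ q ∈ s, finrank k (Λ q)
        + finrank k ↥(⨅ q ∈ s, (s56gwa_orthR (B q) (Λ q)).comap (f' q)) + finrank k G := by
  classical
  haveI : ∀ q : ↥s, FiniteDimensional k (C q.1) := fun q => hC q.1 q.2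
  haveI : ∀ q : ↥s, FiniteDimensional k (Λ q.1) := fun q =>
    Submodule.finiteDimensional_of_le (hΛ q.1 q.2)
  -- the total spaces
  let F : G →ₗ[k] (∀ q : ↥s, ↥(C q.1)) :=
    LinearMap.pi fun q => (f q.1).codRestrict (C q.1) (hf q.1 q.2)
  let F' : G' →ₗ[k] (∀ q : ↥s, ↥(C' q.1)) :=
    LinearMap.pi fun q => (f' q.1).codRestrict (C' q.1) (hf' q.1 q.2)
  let Bt : (∀ q : ↥s, ↥(C q.1)) →ₗ[k] (∀ q : ↥s, ↥(C' q.1)) →ₗ[k] k :=
    ∑ q : ↥s, ((B q.1).domRestrict₁₂ (C q.1) (C' q.1)).compl₁₂
      (LinearMap.proj q) (LinearMap.proj q)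
  have hBt : ∀ ξ η, Bt ξ η = ∑ q : ↥s, B q.1 (ξ q : X q.1) (η q : X' q.1) := by
    intro ξ η
    simp only [Bt, LinearMap.sum_apply, LinearMap.compl₁₂_apply, LinearMap.proj_apply,
      LinearMap.domRestrict₁₂_apply]
  have hFq : ∀ x (q : ↥s), ((F x q : ↥(C q.1)) : X q.1) = f q.1 x := fun x q => rfl
  have hF'q : ∀ y (q : ↥s), ((F' y q : ↥(C' q.1)) : X' q.1) = f' q.1 y := fun y q => rfl
  -- `range F` is the left orthogonal of `range F'`
  have hA : LinearMap.range F = s56gwa_orthL Bt (LinearMap.range F') := by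
    apply le_antisymm
    · rintro _ ⟨x, rfl⟩ _ ⟨y, rfl⟩
      rw [hBt]
      simp only [hFq, hF'q]
      rw [Finset.sum_coe_sort s (fun q => B q (f q x) (f' q y))]
      exact hrecip x y
    · intro ξ hξ
      obtain ⟨x, hx⟩ := hmiddle (fun q => if h : q ∈ s then ((ξ ⟨q, h⟩ : ↥(C q)) : X q) else 0)
        (fun q hq => by rw [dif_pos hq]; exact (ξ ⟨q, hq⟩).2)
        (fun y => by
          have := hξ (F' y) ⟨y, rfl⟩
          rw [hBt] at this
          simp only [hF'q] at this
          rw [← Finset.sum_coe_sort s]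
          rw [← this]
          refine Finset.sum_congr rfl fun q _ => ?_
          rw [dif_pos q.2])
      refine ⟨x, ?_⟩
      funext q
      apply Subtype.ext
      rw [hFq, hx q.1 q.2, dif_pos q.2]
  -- the local conditions
  let jΛ : (∀ q : ↥s, ↥(Λ q.1)) →ₗ[k] (∀ q : ↥s, ↥(C q.1)) :=
    LinearMap.pi fun q => (Submodule.inclusion (hΛ q.1 q.2)).comp (LinearMap.proj q)
  have hjΛ : Function.Injective jΛ := by
    intro a b hab
    funext q
    have := congrFun hab q
    exact Submodule.inclusion_injective (hΛ q.1 q.2) this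
  set Λt : Submodule k (∀ q : ↥s, ↥(C q.1)) := LinearMap.range jΛ with hΛt
  have hmemΛt : ∀ ξ : (∀ q : ↥s, ↥(C q.1)), ξ ∈ Λt ↔ ∀ q : ↥s, (ξ q : X q.1) ∈ Λ q.1 := by
    intro ξ
    constructor
    · rintro ⟨a, rfl⟩ q
      exact (a q).2
    · intro h
      exact ⟨fun q => ⟨ξ q, h q⟩, by funext q; rfl⟩
  have hfinΛt : finrank k Λt = ∑ q ∈ s, finrank k (Λ q) := by
    rw [hΛt, LinearMap.finrank_range_of_inj hjΛ, Module.finrank_pi_fintype,
      Finset.sum_coe_sort s (fun q => finrank k (Λ q))]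
  -- the two applications of the orthogonality count
  have h1 := s56gwa_orth_count Bt Λt (LinearMap.range F')
  have h2 := s56gwa_orth_count Bt ⊤ (LinearMap.range F')
  -- right non-degeneracy
  have hR : s56gwa_orthR Bt ⊤ = ⊥ := by
    rw [eq_bot_iff]
    intro η hη
    rw [Submodule.mem_bot]
    funext q
    apply Subtype.ext
    refine hright q.1 q.2 _ (η q).2 fun x hx => ?_
    have := hη (Pi.single q ⟨x, hx⟩) Submodule.mem_top
    rw [hBt, Finset.sum_eq_single q] at this
    · simpa using this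
    · intro b _ hb
      rw [Pi.single_eq_of_ne hb]
      simp
    · intro h
      exact absurd (Finset.mem_univ q) h
  rw [hR, inf_bot_eq, finrank_bot, add_zero, top_inf_eq, ← hA, finrank_top,
    Module.finrank_pi_fintype, Finset.sum_coe_sort s (fun q => finrank k (C q))] at h2
  rw [← hA, hfinΛt] at h1
  -- rank-nullity
  have r1 := LinearMap.finrank_range_add_finrank_ker F
  have r2 := s56gwa_finrank_comap F Λt
  have r3 := s56gwa_finrank_comap F' (s56gwa_orthR Bt Λt)
  -- identifications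
  have i1 : Λt.comap F = ⨅ q ∈ s, (Λ q).comap (f q) := by
    ext x
    simp only [Submodule.mem_comap, hmemΛt, hFq, Submodule.mem_iInf]
    exact ⟨fun h q hq => h ⟨q, hq⟩, fun h q => h q.1 q.2⟩
  have i2 : LinearMap.ker F' = ⨅ q ∈ s, LinearMap.ker (f' q) := by
    ext y
    simp only [LinearMap.mem_ker, Submodule.mem_iInf]
    constructor
    · intro h q hq
      have := congrFun h ⟨q, hq⟩
      have := congrArg Subtype.val this
      simpa [hF'q] using this
    · intro h
      funext q
      apply Subtype.ext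
      rw [hF'q, h q.1 q.2]
      rfl
  have i3 : (s56gwa_orthR Bt Λt).comap F'
      = ⨅ q ∈ s, (s56gwa_orthR (B q) (Λ q)).comap (f' q) := by
    ext y
    simp only [Submodule.mem_comap, s56gwa_mem_orthR, Submodule.mem_iInf]
    constructor
    · intro h q hq l hl
      have := h (Pi.single ⟨q, hq⟩ ⟨l, hΛ q hq hl⟩) ((hmemΛt _).2 fun q' => by
        by_cases e : q' = ⟨q, hq⟩
        · subst e
          simpa using hl
        · rw [Pi.single_eq_of_ne e]
          exact (Λ q'.1).zero_mem)
      rw [hBt, Finset.sum_eq_single (⟨q, hq⟩ : ↥s)] at this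
      · simpa [hF'q] using this
      · intro b _ hb
        rw [Pi.single_eq_of_ne hb]
        simp
      · intro h'
        exact absurd (Finset.mem_univ _) h'
    · intro h ξ hξ
      rw [hBt]
      refine Finset.sum_eq_zero fun q _ => ?_
      rw [hF'q]
      exact h q.1 q.2 _ ((hmemΛt ξ).1 hξ q)
  rw [i1] at r2
  rw [i3, inf_comm] at r3
  rw [i2] at r3
  omega

end Count

end Fermat.Agent.S56
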