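import Fermat.Agent.S56.GW.Seams
import Fermat.Agent.S56.GW.Asm.LinAlg
import Fermat.Agent.S55.Archimedean
import Fermat.Agent.S55.DualTwistHyp

/-!
# S56, node [GW-ASM] (prefix `s56gwa_`): the Greenberg–Wiles count from the internal seams

`s56gwa_main_of_PT : s56gwa_PT_stmt → s56gw_Dual_stmt → s56gw_GEC_stmt → s56gw_LEC_stmt →
  s56gw_H2_stmt → s56gw_Unr_stmt → s56gw_Main_stmt`, where `s56gwa_PT_stmt` is the statement of
S55 (the perfect pairing `Ш¹(M') × Ш²(M) → 𝔽_p`); `GW/Asm/Final.lean` discharges it.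

The dual Selmer group is `D = {y ∈ H¹_S(M') | y_q ⊥ L_q for q ∈ S}`.  For `T` disjoint from `S`
the abstract count `s56gwa_count` (LinAlg.lean) over `S ∪ T` with the conditions `L_q` (`q ∈ S`),
everything (`q ∈ T`) gives
`dim Sel + Σ h¹_q + dim K' = Σ dim Λ_q + dim Sel^⊥ + h¹_{S ∪ T}(M)` with `K' ⊇ Ш¹(M')`; then the
global Euler characteristic, `h²_S ≤ dim Ш² + Σ h²_q`, `dim Ш²(M) ≤ dim Ш¹(M')` and the local
Euler characteristics finish.  `Sel^⊥ ⊆ killed_T(D)` by right non-degeneracy at `q ∈ T` and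
[GW-UNR].
-/

set_option autoImplicit false

open CategoryTheory Module groupCohomology ExtCitation

namespace Fermat.Agent.S56

local notation "GQ" => (AlgebraicClosure ℚ ≃ₐ[ℚ] AlgebraicClosure ℚ)

section pairing

/-- A pairing which is non-degenerate on the right bounds the dimension of the right factor. -/
theorem s56gwa_finrank_le_of_right_nondeg {k : Type*} [Field k] {Y X : Type*}
    [AddCommGroup Y] [Module k Y] [AddCommGroup X] [Module k X] [FiniteDimensional k Y]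
    (B : Y →ₗ[k] X →ₗ[k] k) (h : ∀ x, (∀ y, B y x = 0) → x = 0) :
    finrank k X ≤ finrank k Y := by
  have hinj : Function.Injective B.flip := by
    rw [← LinearMap.ker_eq_bot, LinearMap.ker_eq_bot']
    intro x hx
    exact h x (fun y => by simpa using LinearMap.congr_fun hx y)
  calc finrank k X ≤ finrank k (Y →ₗ[k] k) := LinearMap.finrank_le_finrank_of_injective hinj
    _ = finrank k Y := Subspace.dual_finrank_eq

end pairing

section loc

variable {p : ℕ} [Fact p.Prime]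

/-- Localisation of a class represented by the cocycle `c`. -/
theorem s56gwa_loc_mk (M : Rep.{0} (ZMod p) GQ) (q : Nat.Primes) (c : cocycles₁ M) :
    s56gw_loc M q ((H1π M).hom c) = (H1π (s56gw_res M q)).hom
      ((mapCocycles₁ (primeLocalToGlobal q) (𝟙 (s56gw_res M q))).hom c) :=
  H1π_comp_map_apply (primeLocalToGlobal q) (𝟙 (s56gw_res M q)) c

/-- Localisation maps continuous classes to continuous classes. -/
theorem s56gwa_loc_mem_of_cont (M : Rep.{0} (ZMod p) GQ) (q : Nat.Primes) (x : H1 M)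
    (hx : x ∈ continuousH1 (MonoidHom.id GQ) M) : s56gw_loc M q x ∈ s56gw_cH1 M q := by
  obtain ⟨c, hc, rfl⟩ := (mem_continuousH1_iff _ M x).1 hx
  rw [s56gwa_loc_mk]
  refine H1π_mem_continuousH1 _ _ ?_
  have h := IsLevelConstant₁.precomp (rH := MonoidHom.id GQ) (rG := primeLocalToGlobal q)
    (primeLocalToGlobal q) (fun _ => rfl) hc
  exact h

theorem s56gwa_loc_mem (S : Finset Nat.Primes) (M : Rep.{0} (ZMod p) GQ) (q : Nat.Primes)
    (x : H1 M) (hx : x ∈ continuousH1S S M) : s56gw_loc M q x ∈ s56gw_cH1 M q :=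
  s56gwa_loc_mem_of_cont M q x (continuousH1S_le_continuousH1 S M hx)

/-- The localisation map on the continuous classes unramified outside `S`. -/
noncomputable def s56gwa_f (S : Finset Nat.Primes) (M : Rep.{0} (ZMod p) GQ) (q : Nat.Primes) :
    ↥(continuousH1S S M) →ₗ[ZMod p] H1 (s56gw_res M q) :=
  (s56gw_loc M q) ∘ₗ (continuousH1S S M).subtype

theorem s56gwa_f_apply (S : Finset Nat.Primes) (M : Rep.{0} (ZMod p) GQ) (q : Nat.Primes)
    (x : ↥(continuousH1S S M)) : s56gwa_f S M q x = s56gw_loc M q x.1 := rfl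

open Classical in
/-- The local conditions extended to the auxiliary primes: `L q` at `q ∈ S`, everything
(continuous) elsewhere. -/
noncomputable def s56gwa_Lam (S : Finset Nat.Primes) (M : Rep.{0} (ZMod p) GQ)
    (L : s56gw_Cond M) : s56gw_Cond M :=
  fun q => if q ∈ S then L q else s56gw_cH1 M q

theorem s56gwa_Lam_of_mem (S : Finset Nat.Primes) (M : Rep.{0} (ZMod p) GQ)
    (L : s56gw_Cond M) {q : Nat.Primes} (hq : q ∈ S) : s56gwa_Lam S M L q = L q := by
  unfold s56gwa_Lam; exact if_pos hq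

theorem s56gwa_Lam_of_not_mem (S : Finset Nat.Primes) (M : Rep.{0} (ZMod p) GQ)
    (L : s56gw_Cond M) {q : Nat.Primes} (hq : q ∉ S) : s56gwa_Lam S M L q = s56gw_cH1 M q := by
  unfold s56gwa_Lam; exact if_neg hq

theorem s56gwa_Lam_le (S : Finset Nat.Primes) (M : Rep.{0} (ZMod p) GQ)
    (L : s56gw_Cond M) (hL : ∀ q ∈ S, L q ≤ s56gw_cH1 M q) (q : Nat.Primes) :
    s56gwa_Lam S M L q ≤ s56gw_cH1 M q := by
  by_cases hq : q ∈ S
  · rw [s56gwa_Lam_of_mem S M L hq]; exact hL q hq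
  · rw [s56gwa_Lam_of_not_mem S M L hq]

/-- The dual Selmer group. -/
noncomputable def s56gwa_D (M : Rep.{0} (ZMod p) GQ)
    (B : ∀ q : Nat.Primes,
      H1 (s56gw_res M q) →ₗ[ZMod p] H1 (s56gw_res (s56gw_dual M) q) →ₗ[ZMod p] ZMod p)
    (S : Finset Nat.Primes) (L : s56gw_Cond M) : Submodule (ZMod p) (H1 (s56gw_dual M)) :=
  continuousH1S S (s56gw_dual M) ⊓
    ⨅ q ∈ S, (s56gwa_orthR (B q) (L q)).comap (s56gw_loc (s56gw_dual M) q)

/-- The Selmer group is the space counted by `s56gwa_count`. -/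
theorem s56gwa_sel_eq (S T : Finset Nat.Primes) (M : Rep.{0} (ZMod p) GQ) (L : s56gw_Cond M) :
    (⨅ q ∈ S ∪ T, (s56gwa_Lam S M L q).comap (s56gwa_f (S ∪ T) M q)).map
        (continuousH1S (S ∪ T) M).subtype = s56gw_Sel S T M L := by
  ext x
  simp only [Submodule.mem_map, Submodule.mem_iInf, Submodule.mem_comap, s56gw_Sel,
    Submodule.mem_inf, Submodule.subtype_apply]
  constructor
  · rintro ⟨y, hy, rfl⟩
    refine ⟨y.2, fun q hq => ?_⟩
    have := hy q (Finset.mem_union_left T hq)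
    rwa [s56gwa_Lam_of_mem S M L hq] at this
  · rintro ⟨hx, h⟩
    refine ⟨⟨x, hx⟩, fun q _ => ?_, rfl⟩
    by_cases hq : q ∈ S
    · rw [s56gwa_Lam_of_mem S M L hq]; exact h q hq
    · rw [s56gwa_Lam_of_not_mem S M L hq]; exact s56gwa_loc_mem _ M q x hx

/-- `Ш¹` is contained in the common kernel of the localisation maps. -/
theorem s56gwa_sha_le (hp2 : p ≠ 2) (S : Finset Nat.Primes) (A : Rep.{0} (ZMod p) GQ) :
    sha₁ S A ≤ (⨅ q ∈ S, LinearMap.ker (s56gwa_f S A q)).map (continuousH1S S A).subtype := by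
  intro x hx
  obtain ⟨hx1, hx2⟩ := (Fermat.Agent.S55.tl_mem_sha₁_iff hp2 S A x).1 hx
  refine ⟨⟨x, hx1⟩, ?_, rfl⟩
  simp only [SetLike.mem_coe, Submodule.mem_iInf, LinearMap.mem_ker]
  intro q hq
  exact hx2 ⟨q, hq⟩

/-- The orthogonal complement counted by `s56gwa_count` lies in the classes of the dual Selmer
group killed at the auxiliary primes. -/
theorem s56gwa_killed_le (hUnr : s56gw_Unr_stmt) (M : Rep.{0} (ZMod p) GQ)
    (DS : s56gw_DualSys p M) (S T : Finset Nat.Primes) (hdisj : Disjoint S T)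
    (hsm' : s56gw_Smooth (s56gw_dual M)) (hur' : s56gw_UnrOut S (s56gw_dual M))
    (L : s56gw_Cond M) :
    (⨅ q ∈ S ∪ T, (s56gwa_orthR (DS.B q) (s56gwa_Lam S M L q)).comap
        (s56gwa_f (S ∪ T) (s56gw_dual M) q)).map
        (continuousH1S (S ∪ T) (s56gw_dual M)).subtype
      ≤ s56gw_killed T (s56gw_dual M) (s56gwa_D M DS.B S L) := by
  rintro x ⟨y, hy, rfl⟩
  simp only [SetLike.mem_coe, Submodule.mem_iInf, Submodule.mem_comap] at hy
  -- local triviality at the primes of `T`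
  have hT : ∀ q ∈ T, s56gw_loc (s56gw_dual M) q y.1 = 0 := by
    intro q hq
    have hqS : q ∉ S := Finset.disjoint_right.1 hdisj hq
    have h1 := hy q (Finset.mem_union_right S hq)
    rw [s56gwa_Lam_of_not_mem S M L hqS] at h1
    exact DS.right q _ (s56gwa_loc_mem _ (s56gw_dual M) q y.1 y.2) (fun x hx => h1 x hx)
  have hyS : y.1 ∈ continuousH1S S (s56gw_dual M) :=
    hUnr p S T (s56gw_dual M) hsm' hur' y.1 y.2 hT
  simp only [s56gw_killed, s56gwa_D, Submodule.mem_inf, Submodule.mem_iInf, Submodule.mem_comap,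
    LinearMap.mem_ker, Submodule.subtype_apply]
  refine ⟨⟨hyS, fun q hq => ?_⟩, hT⟩
  have h1 := hy q (Finset.mem_union_left T hq)
  rwa [s56gwa_Lam_of_mem S M L hq] at h1

end loc

/-- The Poitou–Tate duality `Ш¹(M') × Ш²(M) → 𝔽_p` (= S55), as a Prop. -/
def s56gwa_PT_stmt : Prop :=
  ∀ (p : ℕ) [Fact p.Prime], p ≠ 2 → ∀ (S : Finset Nat.Primes), pPrime p ∈ S →
  ∀ (M : Rep.{0} (ZMod p) GQ) [FiniteDimensional (ZMod p) M],
    s56gw_Smooth M → s56gw_UnrOut S M →
    ∃ B : sha₁ S (s56gw_dual M) →ₗ[ZMod p] sha₂ S M →ₗ[ZMod p] ZMod p,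
      (∀ y, (∀ x, B y x = 0) → y = 0) ∧ (∀ x, (∀ y, B y x = 0) → x = 0)

/-- **[GW-ASM]**: the Greenberg–Wiles inequality from the internal seams. -/
theorem s56gwa_main_of_PT (hPT : s56gwa_PT_stmt) (hDual : s56gw_Dual_stmt)
    (hGEC : s56gw_GEC_stmt) (hLEC : s56gw_LEC_stmt) (hH2 : s56gw_H2_stmt)
    (hUnr : s56gw_Unr_stmt) : s56gw_Main_stmt := by
  intro p _ hp2 S hpS M _ hsm hur hni _hni' L hL
  obtain ⟨DS⟩ := hDual p hp2 M hsm
  have hsm' : s56gw_Smooth (s56gw_dual M) := Fermat.Agent.S55.tl_dualTwist_smooth M hsm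
  have hur' : s56gw_UnrOut S (s56gw_dual M) :=
    Fermat.Agent.S55.tl_dualTwist_unramified M S hpS hur
  obtain ⟨hfinS', -, -⟩ := hGEC p hp2 S hpS (s56gw_dual M) hsm' hur'
  have hDfin : FiniteDimensional (ZMod p) ↥(s56gwa_D M DS.B S L) :=
    Submodule.finiteDimensional_of_le (inf_le_left : s56gwa_D M DS.B S L ≤ _)
  refine ⟨s56gwa_D M DS.B S L, inf_le_left, hDfin, ?_⟩
  intro T hdisj
  have hpST : pPrime p ∈ S ∪ T := Finset.mem_union_left T hpS
  have hurST : s56gw_UnrOut (S ∪ T) M :=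
    fun q hq => hur q (fun h => hq (Finset.mem_union_left T h))
  have hurST' : s56gw_UnrOut (S ∪ T) (s56gw_dual M) :=
    fun q hq => hur' q (fun h => hq (Finset.mem_union_left T h))
  obtain ⟨hfin1, hfin2, hgec⟩ := hGEC p hp2 (S ∪ T) hpST M hsm hurST
  obtain ⟨hfin1', -, -⟩ := hGEC p hp2 (S ∪ T) hpST (s56gw_dual M) hsm' hurST'
  have hlec := fun q => hLEC p hp2 M hsm q
  have hh2 := hH2 p hp2 (S ∪ T) hpST M hsm hurST hfin2 (fun q _ => (hlec q).2.1)
  obtain ⟨Bp, -, hBr⟩ := hPT p hp2 (S ∪ T) hpST M hsm hurST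
  -- the abstract count
  have hcount := s56gwa_count (k := ZMod p) (S ∪ T)
    (X := fun q => ↥(H1 (s56gw_res M q))) (X' := fun q => ↥(H1 (s56gw_res (s56gw_dual M) q)))
    DS.B (fun q => s56gw_cH1 M q) (fun q => s56gw_cH1 (s56gw_dual M) q)
    (s56gwa_f (S ∪ T) M) (s56gwa_f (S ∪ T) (s56gw_dual M)) (s56gwa_Lam S M L)
    (fun q _ => DS.fin q) (fun q _ => DS.right q)
    (fun q _ x => s56gwa_loc_mem _ M q x.1 x.2)
    (fun q _ y => s56gwa_loc_mem _ (s56gw_dual M) q y.1 y.2)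
    (fun x y => DS.recip (S ∪ T) hpST hurST x.1 x.2 y.1 y.2)
    (fun ξ hξ h => by
      obtain ⟨x, hx, hxq⟩ := DS.middle (S ∪ T) hpST hurST ξ hξ (fun y hy => h ⟨y, hy⟩)
      exact ⟨⟨x, hx⟩, hxq⟩)
    (fun q _ => s56gwa_Lam_le S M L hL q)
  -- identification of the four spaces
  have hSelfin : FiniteDimensional (ZMod p) ↥(s56gw_Sel S T M L) :=
    Submodule.finiteDimensional_of_le (inf_le_left : s56gw_Sel S T M L ≤ _)
  have e1 : finrank (ZMod p) ↥(⨅ q ∈ S ∪ T, (s56gwa_Lam S M L q).comap (s56gwa_f (S ∪ T) M q))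
      = finrank (ZMod p) ↥(s56gw_Sel S T M L) := by
    rw [← s56gwa_sel_eq, Submodule.finrank_map_subtype_eq]
  have hkfin : FiniteDimensional (ZMod p) ↥(s56gw_killed T (s56gw_dual M) (s56gwa_D M DS.B S L)) :=
    Submodule.finiteDimensional_of_le (inf_le_left : s56gw_killed T (s56gw_dual M) _ ≤ _)
  have e2 : finrank (ZMod p) ↥(⨅ q ∈ S ∪ T, (s56gwa_orthR (DS.B q) (s56gwa_Lam S M L q)).comap
        (s56gwa_f (S ∪ T) (s56gw_dual M) q))
      ≤ finrank (ZMod p) ↥(s56gw_killed T (s56gw_dual M) (s56gwa_D M DS.B S L)) := by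
    rw [← Submodule.finrank_map_subtype_eq]
    exact Submodule.finrank_mono (s56gwa_killed_le hUnr M DS S T hdisj hsm' hur' L)
  have hsha1fin : FiniteDimensional (ZMod p) ↥(sha₁ (S ∪ T) (s56gw_dual M)) :=
    Submodule.finiteDimensional_of_le (inf_le_left : sha₁ (S ∪ T) (s56gw_dual M) ≤ _)
  have e3 : finrank (ZMod p) ↥(sha₁ (S ∪ T) (s56gw_dual M))
      ≤ finrank (ZMod p) ↥(⨅ q ∈ S ∪ T, LinearMap.ker (s56gwa_f (S ∪ T) (s56gw_dual M) q)) := by
    rw [← Submodule.finrank_map_subtype_eq]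
    exact Submodule.finrank_mono (s56gwa_sha_le hp2 (S ∪ T) (s56gw_dual M))
  have e4 : finrank (ZMod p) ↥(sha₂ (S ∪ T) M) ≤ finrank (ZMod p) ↥(sha₁ (S ∪ T) (s56gw_dual M)) :=
    s56gwa_finrank_le_of_right_nondeg Bp hBr
  -- `H⁰(G_ℚ, M) = 0`
  have e5 : finrank (ZMod p) ↥M.ρ.invariants = 0 := by
    have : M.ρ.invariants = ⊥ := (Submodule.eq_bot_iff _).2 (fun m hm => hni m hm)
    rw [this]; exact finrank_bot _ _
  -- the local Euler characteristics, summed
  have e6 : ∑ q ∈ S ∪ T, finrank (ZMod p)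
          (continuousH2 (primeLocalToGlobal q) (s56gw_res M q))
        + ∑ q ∈ S ∪ T, finrank (ZMod p) ↥(s56gw_res M q).ρ.invariants
        + finrank (ZMod p) M
      ≤ ∑ q ∈ S ∪ T, finrank (ZMod p) ↥(s56gw_cH1 M q) := by
    have h := Finset.sum_le_sum (fun q (_ : q ∈ S ∪ T) => (hlec q).2.2)
    rw [Finset.sum_add_distrib, Finset.sum_add_distrib, Finset.sum_ite_eq' (S ∪ T) (pPrime p)
      (fun _ => finrank (ZMod p) M), if_pos hpST] at h
    exact h
  -- splitting the sums over `S ∪ T`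
  have e7 : ∑ q ∈ S ∪ T, finrank (ZMod p) ↥(s56gw_res M q).ρ.invariants
      = ∑ q ∈ S, finrank (ZMod p) ↥(s56gw_res M q).ρ.invariants
        + ∑ q ∈ T, finrank (ZMod p) ↥(s56gw_res M q).ρ.invariants := Finset.sum_union hdisj
  have e8 : ∑ q ∈ S ∪ T, finrank (ZMod p) ↥(s56gwa_Lam S M L q)
      = ∑ q ∈ S, finrank (ZMod p) ↥(L q) + ∑ q ∈ T, finrank (ZMod p) ↥(s56gw_cH1 M q) := by
    rw [Finset.sum_union hdisj]
    congr 1
    · exact Finset.sum_congr rfl (fun q hq => by rw [s56gwa_Lam_of_mem S M L hq])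
    · exact Finset.sum_congr rfl (fun q hq => by
        rw [s56gwa_Lam_of_not_mem S M L (Finset.disjoint_right.1 hdisj hq)])
  refine ⟨hSelfin, ?_⟩
  rw [e1, e8] at hcount
  omega

end Fermat.Agent.S56
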